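import Fermat.Agent.S55.Local.H483.UR6

/-!
# S55, layer L : the inertia subgroup of a quotient is the image of inertia   (helper483)

`K ⊆ E ⊆ N`, `N / K` finite Galois, `E / K` normal.  Every `ι ∈ Gal(E/K)` acting trivially on the
residue field of `E` is the restriction of some `σ ∈ Gal(N/K)` acting trivially on the residue
field of `N` (`exists_inertial_lift`).  Proof by counting: `|I(N/K)| = |I(E/K)| · |I(N/E)|`.
-/

set_option autoImplicit false
set_option linter.unusedSectionVars false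
set_option linter.style.haveILetI false

namespace Fermat.Agent.S55.Local.H483

open Fermat.Agent.S55.Local

section Surj

variable (A F : Type) [CommRing A] [IsDomain A] [IsDiscreteValuationRing A]
  [IsAdicComplete (IsLocalRing.maximalIdeal A) A] [Finite (IsLocalRing.ResidueField A)]
  [Field F] [CharZero F] [Algebra A F] [IsFractionRing A F]
  (K : Type) [Field K] [Algebra F K] [FiniteDimensional F K]
  (N : Type) [Field N] [Algebra F N] [Algebra K N] [IsScalarTower F K N]
  [FiniteDimensional K N] [IsGalois K N]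
  (E : Type) [Field E] [Algebra F E] [Algebra K E] [Algebra E N]
  [IsScalarTower F K E] [IsScalarTower F E N] [IsScalarTower K E N]

/-- Multiplicativity of the orders of inertia subgroups in a tower. -/
theorem card_inertia_tower (I : Subgroup (N ≃ₐ[K] N))
    (hmem : ∀ σ, σ ∈ I ↔ ∀ x : N, IsInt A F N x → InMax A F N (σ x - x))
    (hcard : ∀ (ϖK : Kˣ) (ϖN : Nˣ), IsUnif A F K ϖK → IsUnif A F N ϖN →
      unitsIncl N K ϖK * ϖN ^ (-(Nat.card I : ℤ)) ∈ intUnits A F N)
    (H : Subgroup (N ≃ₐ[K] N))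
    (hH : ∀ σ : N ≃ₐ[K] N, σ ∈ H ↔ ∀ x : E, σ (algebraMap E N x) = algebraMap E N x)
    (e' : ℕ)
    (he' : ∀ (ϖK : Kˣ) (ϖE : Eˣ), IsUnif A F K ϖK → IsUnif A F E ϖE →
      unitsIncl E K ϖK * ϖE ^ (-(e' : ℤ)) ∈ intUnits A F E) :
    Nat.card I = e' * Nat.card ↥(H ⊓ I) := by
  haveI : FiniteDimensional F N := FiniteDimensional.trans F K N
  haveI : FiniteDimensional F E := FiniteDimensional.left F E N
  haveI : FiniteDimensional K E := FiniteDimensional.left K E N
  haveI : FiniteDimensional E N := FiniteDimensional.right K E N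
  haveI : IsGalois E N := IsGalois.tower_top_of_isGalois K E N
  obtain ⟨IE, -, hmemE, hcardE⟩ := exists_inertia A F E N
  obtain ⟨ϖK, hϖK⟩ := H608.exists_isUnif A F K
  obtain ⟨ϖE, hϖE⟩ := H608.exists_isUnif A F E
  obtain ⟨ϖN, hϖN⟩ := H608.exists_isUnif A F N
  have hcardEq : Nat.card IE = Nat.card ↥(H ⊓ I) := by
    have hmap : ∀ σ : N ≃ₐ[E] N, σ ∈ IE → AlgEquiv.restrictScalars K σ ∈ H ⊓ I := by
      intro σ hσ
      refine ⟨(hH _).2 (fun x => ?_), (hmem _).2 (fun x hx => ?_)⟩
      · exact σ.commutes x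
      · exact (hmemE σ).1 hσ x hx
    refine Nat.card_eq_of_bijective
      (fun σ : IE => (⟨AlgEquiv.restrictScalars K σ.1, hmap σ.1 σ.2⟩ : ↥(H ⊓ I))) ⟨?_, ?_⟩
    · intro σ τ hστ
      have h1 : AlgEquiv.restrictScalars K σ.1 = AlgEquiv.restrictScalars K τ.1 :=
        congrArg Subtype.val hστ
      exact Subtype.ext (AlgEquiv.restrictScalars_injective K h1)
    · rintro ⟨τ, hτH, hτI⟩
      have hτE : ∀ x : E, τ (algebraMap E N x) = algebraMap E N x := (hH τ).1 hτH
      let σ : N ≃ₐ[E] N := AlgEquiv.ofRingEquiv (f := τ.toRingEquiv) hτE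
      have hσ : σ ∈ IE := (hmemE σ).2 (fun x hx => (hmem τ).1 hτI x hx)
      refine ⟨⟨σ, hσ⟩, Subtype.ext ?_⟩
      ext x
      rfl
  have he'' := he' ϖK ϖE hϖK hϖE
  have hcK := hcard ϖK ϖN hϖK hϖN
  have hcE := hcardE ϖE ϖN hϖE hϖN
  have hmul : (Nat.card I : ℤ) = e' * Nat.card IE := by
    have he3 : unitsIncl N E (unitsIncl E K ϖK * ϖE ^ (-(e' : ℤ))) ∈ intUnits A F N :=
      (H724.unitsIncl_mem_intUnits_iff724 A F E N _).2 he''
    have hincl : unitsIncl N E (unitsIncl E K ϖK) = unitsIncl N K ϖK := by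
      ext
      simp only [unitsIncl_coe]
      exact (IsScalarTower.algebraMap_apply K E N _).symm
    rw [map_mul, map_zpow, hincl] at he3
    have key : ϖN ^ ((e' : ℤ) * Nat.card IE - Nat.card I) ∈ intUnits A F N := by
      have := (intUnits A F N).mul_mem
        ((intUnits A F N).mul_mem hcK ((intUnits A F N).inv_mem he3))
        ((intUnits A F N).zpow_mem hcE (-(e' : ℤ)))
      have heq : unitsIncl N K ϖK * ϖN ^ (-(Nat.card I : ℤ)) *
          (unitsIncl N K ϖK * unitsIncl N E ϖE ^ (-(e' : ℤ)))⁻¹ *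
          (unitsIncl N E ϖE * ϖN ^ (-(Nat.card IE : ℤ))) ^ (-(e' : ℤ)) =
          ϖN ^ ((e' : ℤ) * Nat.card IE - Nat.card I) := by
        apply Additive.ofMul.injective
        simp only [ofMul_mul, ofMul_zpow, ofMul_inv]
        module
      rwa [heq] at this
    have h0 := H724.zpow_mem_intUnits724 A F N hϖN.1 hϖN.2.1 key
    linarith
  rw [← hcardEq]
  exact_mod_cast hmul

variable [Normal K E]

/-- **Inertia of a quotient**: every element of `Gal(E/K)` acting trivially on the residue field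
is the restriction of an element of `Gal(N/K)` acting trivially on the residue field. -/
theorem exists_inertial_lift (ι : E ≃ₐ[K] E)
    (hι : ∀ x : E, IsInt A F E x → InMax A F E (ι x - x)) :
    ∃ σ : N ≃ₐ[K] N, (∀ x : N, IsInt A F N x → InMax A F N (σ x - x)) ∧
      ∀ x : E, σ (algebraMap E N x) = algebraMap E N (ι x) := by
  haveI : FiniteDimensional F N := FiniteDimensional.trans F K N
  haveI : FiniteDimensional F E := FiniteDimensional.left F E N
  haveI : FiniteDimensional K E := FiniteDimensional.left K E N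
  haveI : IsGalois K E :=
    isGalois_iff.2 ⟨Algebra.isSeparable_tower_bot_of_isSeparable K E N, inferInstance⟩
  obtain ⟨I, -, hmem, hcard⟩ := exists_inertia A F K N
  obtain ⟨J, -, hmemJ, hcardJ⟩ := exists_inertia A F K E
  -- restriction
  let r : (N ≃ₐ[K] N) →* (E ≃ₐ[K] E) := AlgEquiv.restrictNormalHom E
  have hr : ∀ (σ : N ≃ₐ[K] N) (x : E), algebraMap E N (r σ x) = σ (algebraMap E N x) :=
    fun σ x => AlgEquiv.restrictNormal_commutes σ E x
  -- integrality is intrinsic
  have hint : ∀ y : E, IsInt A F N (algebraMap E N y) ↔ IsInt A F E y :=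
    fun y => H724.isInt_algebraMap_iff724 A F E N y
  have hmax : ∀ y : E, InMax A F N (algebraMap E N y) ↔ InMax A F E y := by
    intro y
    unfold InMax
    rw [hint, ← map_inv₀, hint]
    simp only [map_eq_zero]
  -- `r` maps `I` into `J`
  have hrI : ∀ σ ∈ I, r σ ∈ J := by
    intro σ hσ
    rw [hmemJ]
    intro x hx
    rw [← hmax, map_sub, hr]
    exact (hmem σ).1 hσ _ ((hint x).2 hx)
  -- the kernel of `r`
  have hker : ∀ σ : N ≃ₐ[K] N, σ ∈ r.ker ↔ ∀ x : E, σ (algebraMap E N x) = algebraMap E N x := by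
    intro σ
    rw [MonoidHom.mem_ker]
    constructor
    · intro h x
      rw [← hr, h]
      rfl
    · intro h
      ext x
      apply (algebraMap E N).injective
      rw [hr, h]
      rfl
  have hmulc := card_inertia_tower A F K N E I hmem hcard r.ker hker (Nat.card J) hcardJ
  -- the restriction of `r` to `I`
  let f : ↥I →* (E ≃ₐ[K] E) := r.comp I.subtype
  have hfker : Nat.card f.ker = Nat.card ↥(r.ker ⊓ I) := by
    refine Nat.card_eq_of_bijective
      (fun σ : f.ker => (⟨σ.1.1, ⟨σ.2, σ.1.2⟩⟩ : ↥(r.ker ⊓ I))) ⟨?_, ?_⟩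
    · intro σ τ h
      have h' : (σ.1.1 : N ≃ₐ[K] N) = τ.1.1 :=
        congrArg (fun z : ↥(r.ker ⊓ I) => (z : N ≃ₐ[K] N)) h
      exact Subtype.ext (Subtype.ext h')
    · rintro ⟨σ, hσ1, hσ2⟩
      exact ⟨⟨⟨σ, hσ2⟩, hσ1⟩, rfl⟩
  have hrange : f.range ≤ J := by
    rintro _ ⟨σ, rfl⟩
    exact hrI σ.1 σ.2
  have hidx : Nat.card ↥I = Nat.card f.ker * Nat.card f.range := by
    rw [← Subgroup.index_ker f, mul_comm]
    exact (Subgroup.index_mul_card f.ker).symm
  have hpos : 0 < Nat.card ↥(r.ker ⊓ I) := Nat.card_pos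
  have hcr : Nat.card f.range = Nat.card J := by
    rw [hfker, hmulc, mul_comm] at hidx
    exact (Nat.eq_of_mul_eq_mul_left hpos hidx).symm
  have heq : f.range = J := Subgroup.eq_of_le_of_card_ge hrange hcr.ge
  have hιJ : ι ∈ J := (hmemJ ι).2 hι
  rw [← heq] at hιJ
  obtain ⟨σ, hσ⟩ := hιJ
  refine ⟨σ.1, (hmem σ.1).1 σ.2, fun x => ?_⟩
  rw [← hr]
  exact congrArg (algebraMap E N) (DFunLike.congr_fun hσ x)

end Surj

end Fermat.Agent.S55.Local.H483
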