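import Fermat.Agent.S55.Local.Spec
import Fermat.Agent.S55.Local.H715.Integers
import Fermat.Agent.S55.Local.H724.Ramification

/-!
# S55, layer L : inertia group and ramification index (absolute case)   (helper483)

Base `(A, F)`: complete DVR with finite residue field and its fraction field (char. 0).
`N / F` finite Galois.  With `S = integralClosure A N` and `G = Gal(N/F)` we show that the
inertia subgroup `I = {σ | ∀ s ∈ S, σ s - s ∈ 𝔪_S}` has cardinality `e`, where
`ϖF = unit * ϖN ^ e` for uniformizers `ϖF`, `ϖN` in the sense of `Defs.lean`.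
-/

set_option autoImplicit false
set_option linter.unusedSectionVars false
set_option linter.style.haveILetI false

namespace Fermat.Agent.S55.Local.H483

open Fermat.Agent.S55.Local IsLocalRing

section Abs

variable (A F : Type) [CommRing A] [IsDomain A] [IsDiscreteValuationRing A]
  [IsAdicComplete (IsLocalRing.maximalIdeal A) A] [Finite (IsLocalRing.ResidueField A)]
  [Field F] [CharZero F] [Algebra A F] [IsFractionRing A F]
  (N : Type) [Field N] [Algebra F N] [FiniteDimensional F N]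
  [Algebra A N] [IsScalarTower A F N]

/-- the ring of integers of `N` -/
abbrev OO : Subalgebra A N := integralClosure A N

lemma coe_mem_OO_iff (x : N) : x ∈ OO A N ↔ IsInt A F N x :=
  (H715.isInt_iff A F N x).symm

/-- An element of the ring of integers is a unit iff its inverse (in `N`) is integral. -/
lemma isUnit_OO_iff (s : OO A N) :
    IsUnit s ↔ (s : N) ≠ 0 ∧ IsInt A F N ((s : N)⁻¹) := by
  constructor
  · rintro ⟨u, rfl⟩
    have h1 : ((u : OO A N) : N) * ((u⁻¹ : (OO A N)ˣ) : OO A N) = 1 := by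
      rw [← Subalgebra.coe_mul, Units.mul_inv]; rfl
    have hne : ((u : OO A N) : N) ≠ 0 := left_ne_zero_of_mul_eq_one h1
    refine ⟨hne, ?_⟩
    have : ((u : OO A N) : N)⁻¹ = ((u⁻¹ : (OO A N)ˣ) : OO A N) :=
      (eq_inv_of_mul_eq_one_right h1).symm
    rw [this]
    exact (coe_mem_OO_iff A F N _).1 (Subtype.property _)
  · rintro ⟨hne, hinv⟩
    refine ⟨⟨s, ⟨(s : N)⁻¹, (coe_mem_OO_iff A F N _).2 hinv⟩, ?_, ?_⟩, rfl⟩
    · ext; simp [hne]
    · ext; simp [hne]

/-- Membership in the maximal ideal of the ring of integers. -/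
lemma mem_maximalIdeal_OO_iff (s : OO A N) :
    letI := H715.isLocalRing_OL A F N
    s ∈ maximalIdeal (OO A N) ↔ ((s : N) = 0 ∨ ¬ IsInt A F N ((s : N)⁻¹)) := by
  letI := H715.isLocalRing_OL A F N
  rw [mem_maximalIdeal, mem_nonunits_iff, isUnit_OO_iff A F N s]
  tauto

/-! ### Uniformizers -/

variable {A F N}

lemma isInt_zpow_of_nonneg {ϖ : Nˣ} (h : IsInt A F N (ϖ : N)) {n : ℤ} (hn : 0 ≤ n) :
    IsInt A F N ((ϖ ^ n : Nˣ) : N) := by
  obtain ⟨k, rfl⟩ := Int.eq_ofNat_of_zero_le hn
  rw [zpow_natCast, Units.val_pow_eq_pow_val]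
  exact H724.isInt_pow724 A F N h k

lemma unif_not_isInt_inv {ϖ : Nˣ} (h : IsUnif A F N ϖ) : ¬ IsInt A F N ((ϖ : N)⁻¹) := by
  intro hinv
  apply h.2.1
  rw [mem_intUnits]
  refine ⟨h.1, ?_⟩
  rwa [Units.val_inv_eq_inv_val]

/-- A nonzero integral element whose inverse is not integral is divisible by the uniformizer. -/
lemma unif_exists_eq_mul {ϖ : Nˣ} (h : IsUnif A F N ϖ) {s : N} (hs : IsInt A F N s)
    (hs' : s = 0 ∨ ¬ IsInt A F N s⁻¹) : ∃ t : N, IsInt A F N t ∧ s = ϖ * t := by
  rcases eq_or_ne s 0 with rfl | hne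
  · exact ⟨0, isInt_zero A F N, by simp⟩
  have hs'' : ¬ IsInt A F N s⁻¹ := hs'.resolve_left hne
  obtain ⟨n, hn⟩ := h.2.2 (Units.mk0 s hne)
  have hnpos : 0 < n := by
    by_contra hle
    have hle : 0 ≤ -n := by omega
    apply hs''
    have e1 : ((Units.mk0 s hne)⁻¹ : Nˣ) = (Units.mk0 s hne * ϖ ^ (-n))⁻¹ * ϖ ^ (-n) := by
      rw [mul_inv, mul_assoc, inv_mul_cancel, mul_one]
    have e2 : s⁻¹ = (((Units.mk0 s hne)⁻¹ : Nˣ) : N) := by
      rw [Units.val_inv_eq_inv_val]; rfl
    rw [e2, e1, Units.val_mul]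
    exact ((mem_intUnits A F N).1 hn).2.mul (isInt_zpow_of_nonneg h.1 hle)
  refine ⟨((Units.mk0 s hne * ϖ ^ (-n) : Nˣ) : N) * ((ϖ ^ (n - 1) : Nˣ) : N),
    ((mem_intUnits A F N).1 hn).1.mul (isInt_zpow_of_nonneg h.1 (by omega)), ?_⟩
  have e3 : Units.mk0 s hne = ϖ * ((Units.mk0 s hne * ϖ ^ (-n)) * ϖ ^ (n - 1)) := by
    rw [mul_comm ϖ, mul_assoc, mul_assoc, ← zpow_add_one, ← zpow_add]
    simp
  have := congrArg (fun u : Nˣ => (u : N)) e3
  simpa using this

variable (A F N)

/-- The uniformizer as an element of the ring of integers. -/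
def unifOO (ϖ : Nˣ) (h : IsUnif A F N ϖ) : OO A N := ⟨(ϖ : N), (coe_mem_OO_iff A F N _).2 h.1⟩

lemma maximalIdeal_OO_eq_span (ϖ : Nˣ) (h : IsUnif A F N ϖ) :
    letI := H715.isLocalRing_OL A F N
    maximalIdeal (OO A N) = Ideal.span {unifOO A F N ϖ h} := by
  letI := H715.isLocalRing_OL A F N
  apply le_antisymm
  · intro s hs
    rw [mem_maximalIdeal_OO_iff A F N s] at hs
    obtain ⟨t, ht, hst⟩ := unif_exists_eq_mul h ((coe_mem_OO_iff A F N _).1 s.2) hs
    rw [Ideal.mem_span_singleton]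
    refine ⟨⟨t, (coe_mem_OO_iff A F N _).2 ht⟩, ?_⟩
    ext
    exact hst
  · rw [Ideal.span_singleton_le_iff_mem, mem_maximalIdeal_OO_iff A F N]
    right
    exact unif_not_isInt_inv h

lemma mem_maximalIdeal_pow_iff (ϖ : Nˣ) (h : IsUnif A F N ϖ) (k : ℕ) (s : OO A N) :
    letI := H715.isLocalRing_OL A F N
    s ∈ maximalIdeal (OO A N) ^ k ↔ ∃ t : N, IsInt A F N t ∧ (s : N) = (ϖ : N) ^ k * t := by
  letI := H715.isLocalRing_OL A F N
  rw [maximalIdeal_OO_eq_span A F N ϖ h, Ideal.span_singleton_pow, Ideal.mem_span_singleton]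
  constructor
  · rintro ⟨t, rfl⟩
    exact ⟨t, (coe_mem_OO_iff A F N _).1 t.2, rfl⟩
  · rintro ⟨t, ht, hst⟩
    refine ⟨⟨t, (coe_mem_OO_iff A F N _).2 ht⟩, ?_⟩
    ext
    exact hst

/-! ### The ramification index in terms of uniformizers -/

/-- An element of the base field which is integral over `A` comes from `A`. -/
lemma exists_algebraMap_eq_of_isInt {y : F} (hy : IsInt A F F y) : ∃ a : A, algebraMap A F a = y := by
  have hy' : IsIntegral A y := (H715.isInt_iff A F F y).1 hy
  exact IsIntegrallyClosed.algebraMap_eq_of_integral hy'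

/-- Nonunits of `A` are not units of the integers of `F`. -/
lemma algebraMap_nonunit (b : A) (hb : b ∈ maximalIdeal A) :
    algebraMap A F b = 0 ∨ ¬ IsInt A F F (algebraMap A F b)⁻¹ := by
  by_cases h0 : algebraMap A F b = 0
  · exact Or.inl h0
  right
  intro hinv
  obtain ⟨c, hc⟩ := exists_algebraMap_eq_of_isInt A F hinv
  have h1 : algebraMap A F (b * c) = 1 := by
    rw [map_mul, hc, mul_inv_cancel₀ h0]
  have h2 : b * c = 1 := by
    apply IsFractionRing.injective A F
    rw [h1, map_one]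
  rw [mem_maximalIdeal, mem_nonunits_iff] at hb
  exact hb (IsUnit.of_mul_eq_one c h2)

theorem ramificationIdx'_eq (ϖF : Fˣ) (ϖN : Nˣ) (hF : IsUnif A F F ϖF) (hN : IsUnif A F N ϖN)
    (e : ℕ) (he : unitsIncl N F ϖF * ϖN ^ (-(e : ℤ)) ∈ intUnits A F N) :
    letI := H715.isLocalRing_OL A F N
    (maximalIdeal A).ramificationIdx' (maximalIdeal (OO A N)) = e := by
  letI := H715.isLocalRing_OL A F N
  -- the relation `ϖF = u * ϖN ^ e` in `N`
  set u : Nˣ := unitsIncl N F ϖF * ϖN ^ (-(e : ℤ)) with hu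
  have hrel : (algebraMap F N (ϖF : F)) = (u : N) * (ϖN : N) ^ e := by
    have : unitsIncl N F ϖF = u * ϖN ^ e := by
      rw [hu, mul_assoc, ← zpow_natCast, ← zpow_add]; simp
    have h2 := congrArg (fun x : Nˣ => (x : N)) this
    simpa using h2
  have huint := (mem_intUnits A F N).1 he
  apply Ideal.ramificationIdx'_spec
  · rw [Ideal.map_le_iff_le_comap]
    intro b hb
    rw [Ideal.mem_comap, mem_maximalIdeal_pow_iff A F N ϖN hN]
    obtain ⟨t, ht, hbt⟩ := unif_exists_eq_mul hF (isInt_toL A F F b) (algebraMap_nonunit A F b hb)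
    refine ⟨(u : N) * algebraMap F N t, huint.1.mul ((H724.isInt_algebraMap_iff724 A F F N t).2 ht), ?_⟩
    have h1 : ((algebraMap A (OO A N) b : OO A N) : N) = algebraMap F N (algebraMap A F b) := by
      rw [← IsScalarTower.algebraMap_apply A F N]; rfl
    rw [h1]
    have h2 : algebraMap A F b = (ϖF : F) * t := hbt
    rw [h2, map_mul, hrel]
    ring
  · intro hle
    obtain ⟨a, ha⟩ := exists_algebraMap_eq_of_isInt A F hF.1
    have ham : a ∈ maximalIdeal A := by
      rw [mem_maximalIdeal, mem_nonunits_iff]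
      intro hau
      apply unif_not_isInt_inv hF
      obtain ⟨c, hc⟩ := hau.exists_right_inv
      have : ((ϖF : F))⁻¹ = algebraMap A F c := by
        rw [← ha]
        apply inv_eq_of_mul_eq_one_right
        rw [← map_mul, hc, map_one]
      rw [this]
      exact isInt_toL A F F c
    have hmem : algebraMap A (OO A N) a ∈ maximalIdeal (OO A N) ^ (e + 1) :=
      hle (Ideal.mem_map_of_mem _ ham)
    rw [mem_maximalIdeal_pow_iff A F N ϖN hN] at hmem
    obtain ⟨t, ht, hat⟩ := hmem
    have h1 : ((algebraMap A (OO A N) a : OO A N) : N) = algebraMap F N (ϖF : F) := by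
      rw [← ha, ← IsScalarTower.algebraMap_apply A F N]; rfl
    rw [h1, hrel, pow_succ] at hat
    have hϖne : ((ϖN : N)) ^ e ≠ 0 := pow_ne_zero _ ϖN.ne_zero
    have h3 : (u : N) = (ϖN : N) * t := by
      have : (ϖN : N) ^ e * (u : N) = (ϖN : N) ^ e * ((ϖN : N) * t) := by
        rw [mul_comm, hat]; ring
      exact mul_left_cancel₀ hϖne this
    apply unif_not_isInt_inv hN
    have h4 : ((ϖN : N))⁻¹ = t * ((u⁻¹ : Nˣ) : N) := by
      rw [Units.val_inv_eq_inv_val, h3, mul_inv]
      have htne : t ≠ 0 := by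
        rintro rfl
        rw [mul_zero] at h3
        exact u.ne_zero h3
      field_simp
    rw [h4]
    exact ht.mul huint.2

/-! ### The inertia group -/

/-- `y` lies in the maximal ideal of the ring of integers of `N` (intrinsic form). -/
def InMax (y : N) : Prop := IsInt A F N y ∧ (y = 0 ∨ ¬ IsInt A F N y⁻¹)

variable [IsGalois F N]

/-- The action of the Galois group on the ring of integers. -/
@[reducible] noncomputable def actOO : MulSemiringAction (N ≃ₐ[F] N) (OO A N) :=
  IsIntegralClosure.MulSemiringAction A F N (OO A N)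

lemma coe_smul_OO (σ : N ≃ₐ[F] N) (s : OO A N) :
    letI := actOO A F N
    ((σ • s : OO A N) : N) = σ (s : N) := by
  letI := actOO A F N
  exact algebraMap_galRestrict_apply A σ s

/-- The inertia subgroup of `Gal(N/F)`. -/
noncomputable def inertiaAbs : Subgroup (N ≃ₐ[F] N) :=
  letI := actOO A F N
  letI := H715.isLocalRing_OL A F N
  (maximalIdeal (OO A N)).inertia (N ≃ₐ[F] N)

lemma mem_inertiaAbs_iff (σ : N ≃ₐ[F] N) :
    σ ∈ inertiaAbs A F N ↔ ∀ x : N, IsInt A F N x → InMax A F N (σ x - x) := by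
  letI := actOO A F N
  letI := H715.isLocalRing_OL A F N
  show (∀ s : OO A N, σ • s - s ∈ (maximalIdeal (OO A N)).toAddSubgroup) ↔ _
  constructor
  · intro h x hx
    have h1 := h ⟨x, (coe_mem_OO_iff A F N x).2 hx⟩
    rw [Submodule.mem_toAddSubgroup, mem_maximalIdeal_OO_iff A F N] at h1
    have h2 : (((σ • (⟨x, (coe_mem_OO_iff A F N x).2 hx⟩ : OO A N) -
        (⟨x, (coe_mem_OO_iff A F N x).2 hx⟩ : OO A N) : OO A N)) : N) = σ x - x := by
      rw [Subalgebra.coe_sub, coe_smul_OO A F N σ]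
    rw [h2] at h1
    refine ⟨?_, h1⟩
    rw [← h2]
    exact (coe_mem_OO_iff A F N _).1 (Subtype.property _)
  · intro h s
    rw [Submodule.mem_toAddSubgroup, mem_maximalIdeal_OO_iff A F N]
    have h2 : (((σ • s - s : OO A N)) : N) = σ (s : N) - (s : N) := by
      rw [Subalgebra.coe_sub, coe_smul_OO A F N σ]
    rw [h2]
    exact (h (s : N) ((coe_mem_OO_iff A F N _).1 s.2)).2

open Ideal in
theorem card_inertiaAbs_eq_ramificationIdx' :
    letI := H715.isLocalRing_OL A F N
    Nat.card (inertiaAbs A F N) =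
      (maximalIdeal A).ramificationIdx' (maximalIdeal (OO A N)) := by
  letI := actOO A F N
  letI := H715.isLocalRing_OL A F N
  haveI := H715.isFractionRing_OL A F N
  haveI := H715.finite_OL A F N
  haveI := H715.isDedekindDomain_OL A F N
  haveI := H715.isLocalHom_OL A F N
  haveI : IsGaloisGroup (N ≃ₐ[F] N) A (OO A N) :=
    IsGaloisGroup.of_isFractionRing (N ≃ₐ[F] N) A (OO A N) F N
  haveI : (maximalIdeal (OO A N)).LiesOver (maximalIdeal A) := inferInstance
  haveI : Module.IsTorsionFree A (OO A N) :=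
    (Module.isTorsionFree_iff_algebraMap_injective).2 (H715.algebraMap_injective_OL A F N)
  haveI : Module.Flat A (OO A N) := inferInstance
  haveI : Finite (maximalIdeal A).ResidueField := by
    have hb := Ideal.bijective_algebraMap_quotient_residueField (maximalIdeal A)
    haveI : Finite (A ⧸ maximalIdeal A) := ‹Finite (ResidueField A)›
    exact Finite.of_surjective _ hb.2
  haveI : PerfectField (maximalIdeal A).ResidueField := inferInstance
  show Nat.card ((maximalIdeal (OO A N)).inertia (N ≃ₐ[F] N)) = _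
  rw [card_inertia_eq_ramificationIdxIn (G := (N ≃ₐ[F] N)) (maximalIdeal A) (maximalIdeal (OO A N)),
    ramificationIdxIn_eq_ramificationIdx (maximalIdeal A) (maximalIdeal (OO A N)) (N ≃ₐ[F] N)]
  exact (ramificationIdx'_eq_ramificationIdx (maximalIdeal A) (maximalIdeal (OO A N))
    (IsDiscreteValuationRing.not_a_field A)).symm

omit [IsGalois F N] [IsDomain A] [IsDiscreteValuationRing A]
  [IsAdicComplete (IsLocalRing.maximalIdeal A) A] [Finite (IsLocalRing.ResidueField A)]
  [CharZero F] [IsFractionRing A F] [FiniteDimensional F N] in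
lemma isInt_algEquiv (σ : N ≃ₐ[F] N) {x : N} (hx : IsInt A F N x) : IsInt A F N (σ x) := by
  rw [H715.isInt_iff A F N] at hx ⊢
  exact hx.map (σ.toAlgHom.restrictScalars A)

omit [IsGalois F N] [IsDomain A] [IsDiscreteValuationRing A]
  [IsAdicComplete (IsLocalRing.maximalIdeal A) A] [Finite (IsLocalRing.ResidueField A)]
  [CharZero F] [IsFractionRing A F] [FiniteDimensional F N] in
lemma inMax_algEquiv (σ : N ≃ₐ[F] N) {y : N} (hy : InMax A F N y) : InMax A F N (σ y) := by
  refine ⟨isInt_algEquiv A F N σ hy.1, ?_⟩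
  rcases hy.2 with h0 | h
  · left; rw [h0, map_zero]
  · right
    intro hinv
    apply h
    have := isInt_algEquiv A F N σ.symm hinv
    rwa [map_inv₀, AlgEquiv.symm_apply_apply] at this

lemma inertiaAbs_normal : (inertiaAbs A F N).Normal := by
  constructor
  intro σ hσ τ
  rw [mem_inertiaAbs_iff] at hσ ⊢
  intro x hx
  have h1 := hσ (τ.symm x) (isInt_algEquiv A F N τ.symm hx)
  have h2 := inMax_algEquiv A F N τ h1
  have e : (τ * σ * τ⁻¹) x - x = τ (σ (τ.symm x) - τ.symm x) := by
    rw [map_sub, AlgEquiv.apply_symm_apply]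
    rfl
  rw [e]
  exact h2

/-- **Absolute case**: the inertia group of `N / F` has order `e(N/F)`. -/
theorem unif_mul_zpow_card_inertiaAbs (ϖF : Fˣ) (ϖN : Nˣ) (hF : IsUnif A F F ϖF)
    (hN : IsUnif A F N ϖN) :
    unitsIncl N F ϖF * ϖN ^ (-(Nat.card (inertiaAbs A F N) : ℤ)) ∈ intUnits A F N := by
  obtain ⟨e, f, -, he, -⟩ := H724.ramification_core724 A F F N ϖF ϖN hF hN
  rw [card_inertiaAbs_eq_ramificationIdx' A F N, ramificationIdx'_eq A F N ϖF ϖN hF hN e he]
  exact he

end Abs

end Fermat.Agent.S55.Local.H483
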