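import Fermat.Agent.S55.Local.H483.Abs

/-!
# S55, layer L : inertia group and ramification index (relative case)   (helper483)

Base `(A, F)`; `K / F` finite; `N / K` finite Galois.  We apply the absolute case to the base
`(O_K, K)` where `O_K = integralClosure A K`.
-/

set_option autoImplicit false
set_option linter.unusedSectionVars false
set_option linter.style.haveILetI false

namespace Fermat.Agent.S55.Local.H483

open Fermat.Agent.S55.Local IsLocalRing

section Bridge

variable (A F : Type) [CommRing A] [IsDomain A] [IsDiscreteValuationRing A]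
  [IsAdicComplete (IsLocalRing.maximalIdeal A) A] [Finite (IsLocalRing.ResidueField A)]
  [Field F] [CharZero F] [Algebra A F] [IsFractionRing A F]
  (K : Type) [Field K] [Algebra F K] [FiniteDimensional F K]
  [Algebra A K] [IsScalarTower A F K]
  (N : Type) [Field N] [Algebra F N] [Algebra K N] [IsScalarTower F K N]

/-- Integrality over `O_K` is integrality over `A`. -/
lemma isInt_OK_iff (x : N) : IsInt (OO A K) K N x ↔ IsInt A F N x := by
  letI : Algebra A N := H715.algAL A F N
  haveI : IsScalarTower A F N := H715.isScalarTower_algAL A F N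
  haveI : IsScalarTower (OO A K) K N := inferInstance
  haveI : IsScalarTower A K N := IsScalarTower.of_algebraMap_eq (fun a => by
    show algebraMap F N (algebraMap A F a) = algebraMap K N (algebraMap A K a)
    rw [IsScalarTower.algebraMap_apply A F K, ← IsScalarTower.algebraMap_apply F K N])
  haveI : IsScalarTower A (OO A K) N := IsScalarTower.of_algebraMap_eq (fun a => by
    show algebraMap A N a = algebraMap K N (algebraMap (OO A K) K (algebraMap A (OO A K) a))
    rw [IsScalarTower.algebraMap_apply A K N]
    rfl)
  rw [H715.isInt_iff (OO A K) K N x, H715.isInt_iff A F N x]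
  constructor
  · intro hx
    exact isIntegral_trans (R := A) (A := OO A K) x hx
  · intro hx
    exact hx.tower_top

lemma intUnits_OK_eq : intUnits (OO A K) K N = intUnits A F N := by
  ext x
  rw [mem_intUnits, mem_intUnits, isInt_OK_iff A F K N, isInt_OK_iff A F K N]

lemma isUnif_OK_iff (ϖ : Nˣ) : IsUnif (OO A K) K N ϖ ↔ IsUnif A F N ϖ := by
  unfold IsUnif
  rw [intUnits_OK_eq A F K N, isInt_OK_iff A F K N]

lemma inMax_OK_iff (y : N) : InMax (OO A K) K N y ↔ InMax A F N y := by
  unfold InMax
  rw [isInt_OK_iff A F K N, isInt_OK_iff A F K N]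

end Bridge

section Rel

variable (A F : Type) [CommRing A] [IsDomain A] [IsDiscreteValuationRing A]
  [IsAdicComplete (IsLocalRing.maximalIdeal A) A] [Finite (IsLocalRing.ResidueField A)]
  [Field F] [CharZero F] [Algebra A F] [IsFractionRing A F]
  (K : Type) [Field K] [Algebra F K] [FiniteDimensional F K]
  (N : Type) [Field N] [Algebra F N] [Algebra K N] [IsScalarTower F K N]
  [FiniteDimensional K N] [IsGalois K N]

/-- **Inertia group of a finite Galois extension `N / K` of local fields**: a normal subgroup
`I` of `Gal(N/K)`, described intrinsically, of order `e(N/K)`. -/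
theorem exists_inertia :
    ∃ I : Subgroup (N ≃ₐ[K] N), I.Normal ∧
      (∀ σ, σ ∈ I ↔ ∀ x : N, IsInt A F N x → InMax A F N (σ x - x)) ∧
      ∀ (ϖK : Kˣ) (ϖN : Nˣ), IsUnif A F K ϖK → IsUnif A F N ϖN →
        unitsIncl N K ϖK * ϖN ^ (-(Nat.card I : ℤ)) ∈ intUnits A F N := by
  letI : Algebra A K := H715.algAL A F K
  haveI : IsScalarTower A F K := H715.isScalarTower_algAL A F K
  haveI := H715.isDiscreteValuationRing_OL A F K
  haveI := H715.isAdicComplete_OL A F K
  haveI := H715.finite_residueField_OL A F K
  haveI := H715.isFractionRing_OL A F K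
  haveI : CharZero K := charZero_of_injective_algebraMap (algebraMap F K).injective
  refine ⟨inertiaAbs (OO A K) K N, inertiaAbs_normal (OO A K) K N, ?_, ?_⟩
  · intro σ
    rw [mem_inertiaAbs_iff]
    simp only [isInt_OK_iff A F K N, inMax_OK_iff A F K N]
  · intro ϖK ϖN hK hN
    have hK' : IsUnif (OO A K) K K ϖK := (isUnif_OK_iff A F K K ϖK).2 hK
    have hN' : IsUnif (OO A K) K N ϖN := (isUnif_OK_iff A F K N ϖN).2 hN
    have := unif_mul_zpow_card_inertiaAbs (OO A K) K N ϖK ϖN hK' hN'
    rwa [intUnits_OK_eq A F K N] at this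

end Rel

end Fermat.Agent.S55.Local.H483
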