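import Fermat.Agent.S55.Local.H483.Rel
import Fermat.Agent.S55.Local.Spec2
import Fermat.Agent.S55.Local.H608.LF

/-!
# S55, layer L, pieces UR6 / UR6' : `InertiaStatement`, `InertiaCardStatement`   (helper483)

* `inertiaCard483 : InertiaCardStatement` (UR6' of `Spec2.lean`),
* `inertia483 : InertiaStatement` (UR6 of `Spec.lean`).

The inertia subgroup `I` of `Gal(N/K)` is the Mathlib inertia group of the maximal ideal of the
ring of integers of `N` (see `Abs.lean`, `Rel.lean`); it is described intrinsically by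
`σ ∈ I ↔ ∀ x integral, σ x - x ∈ 𝔪_N` and has order `e(N/K)`.  For an intermediate field `E`
the inertia subgroup of `N / E` is `Gal(N/E) ⊓ I` (same intrinsic description), whence
`e(N/E) = |Gal(N/E) ⊓ I|` and, by multiplicativity of `e`, `e(E/K) = |I| / |Gal(N/E) ⊓ I|`.
-/

set_option autoImplicit false
set_option linter.unusedSectionVars false
set_option linter.style.haveILetI false

namespace Fermat.Agent.S55.Local.H483

open Fermat.Agent.S55.Local

section Unram

variable (A F : Type) [CommRing A] [Field F] [Algebra A F]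
  (K : Type) [Field K] [Algebra F K]
  (L : Type) [Field L] [Algebra F L] [Algebra K L] [IsScalarTower F K L]

/-- Given uniformizers with `ϖK = unit * ϖL ^ e`, `L / K` is unramified iff `e = 1`. -/
lemma isUnram_iff_of_unif {ϖK : Kˣ} {ϖL : Lˣ} (hK : IsUnif A F K ϖK) (hL : IsUnif A F L ϖL)
    {e : ℕ} (he : unitsIncl L K ϖK * ϖL ^ (-(e : ℤ)) ∈ intUnits A F L) :
    IsUnram A F L K ↔ e = 1 := by
  constructor
  · intro h
    obtain ⟨y, hy⟩ := h ϖL
    obtain ⟨m, hm⟩ := hK.2.2 y
    have hm' : unitsIncl L K (y * ϖK ^ (-m)) ∈ intUnits A F L :=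
      (H724.unitsIncl_mem_intUnits_iff724 A F K L _).2 hm
    have key : ϖL ^ (1 - (e : ℤ) * m) ∈ intUnits A F L := by
      have := (intUnits A F L).mul_mem ((intUnits A F L).mul_mem hy hm')
        ((intUnits A F L).zpow_mem he m)
      have heq : ϖL * (unitsIncl L K y)⁻¹ * unitsIncl L K (y * ϖK ^ (-m)) *
          (unitsIncl L K ϖK * ϖL ^ (-(e : ℤ))) ^ m = ϖL ^ (1 - (e : ℤ) * m) := by
        rw [map_mul, map_zpow]
        apply Additive.ofMul.injective
        simp only [ofMul_mul, ofMul_zpow, ofMul_inv]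
        module
      rwa [heq] at this
    have h0 := H724.zpow_mem_intUnits724 A F L hL.1 hL.2.1 key
    have h1 : (e : ℤ) * m = 1 := by linarith
    have h2 : (e : ℤ) = 1 := by
      rcases Int.eq_one_or_neg_one_of_mul_eq_one h1 with h | h
      · exact h
      · have : (0 : ℤ) ≤ e := Int.natCast_nonneg e
        omega
    exact_mod_cast h2
  · rintro rfl
    intro x
    obtain ⟨n, hn⟩ := hL.2.2 x
    refine ⟨ϖK ^ n, ?_⟩
    have := (intUnits A F L).mul_mem hn ((intUnits A F L).zpow_mem he (-n))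
    have heq : x * ϖL ^ (-n) * (unitsIncl L K ϖK * ϖL ^ (-((1 : ℕ) : ℤ))) ^ (-n) =
        x * (unitsIncl L K (ϖK ^ n))⁻¹ := by
      rw [map_zpow]
      apply Additive.ofMul.injective
      simp only [ofMul_mul, ofMul_zpow, ofMul_inv]
      push_cast
      module
    rwa [heq] at this

end Unram

section Tower

variable (A F : Type) [CommRing A] [IsDomain A] [IsDiscreteValuationRing A]
  [IsAdicComplete (IsLocalRing.maximalIdeal A) A] [Finite (IsLocalRing.ResidueField A)]
  [Field F] [CharZero F] [Algebra A F] [IsFractionRing A F]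
  (K : Type) [Field K] [Algebra F K] [FiniteDimensional F K]
  (N : Type) [Field N] [Algebra F N] [Algebra K N] [IsScalarTower F K N]
  [FiniteDimensional K N] [IsGalois K N]
  (E : Type) [Field E] [Algebra F E] [Algebra K E] [Algebra E N]
  [IsScalarTower F K E] [IsScalarTower F E N] [IsScalarTower K E N]

/-- The tower argument, for an abstract intermediate field `K ⊆ E ⊆ N` and a subgroup `H`
which is the fixing subgroup of `E`. -/
theorem tower_inertia (I : Subgroup (N ≃ₐ[K] N))
    (hmem : ∀ σ, σ ∈ I ↔ ∀ x : N, IsInt A F N x → InMax A F N (σ x - x))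
    (hcard : ∀ (ϖK : Kˣ) (ϖN : Nˣ), IsUnif A F K ϖK → IsUnif A F N ϖN →
      unitsIncl N K ϖK * ϖN ^ (-(Nat.card I : ℤ)) ∈ intUnits A F N)
    (H : Subgroup (N ≃ₐ[K] N))
    (hH : ∀ σ : N ≃ₐ[K] N, σ ∈ H ↔ ∀ x : E, σ (algebraMap E N x) = algebraMap E N x) :
    (IsUnram A F N E ↔ H ⊓ I = ⊥) ∧ (IsUnram A F E K ↔ I ≤ H) := by
  haveI : FiniteDimensional F N := FiniteDimensional.trans F K N
  haveI : FiniteDimensional F E := FiniteDimensional.left F E N
  haveI : FiniteDimensional K E := FiniteDimensional.left K E N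
  haveI : FiniteDimensional E N := FiniteDimensional.right K E N
  haveI : IsGalois E N := IsGalois.tower_top_of_isGalois K E N
  obtain ⟨IE, -, hmemE, hcardE⟩ := exists_inertia A F E N
  obtain ⟨ϖK, hϖK⟩ := H608.exists_isUnif A F K
  obtain ⟨ϖE, hϖE⟩ := H608.exists_isUnif A F E
  obtain ⟨ϖN, hϖN⟩ := H608.exists_isUnif A F N
  -- the inertia subgroup of `N / E` is `H ⊓ I`
  have hcardEq : Nat.card IE = Nat.card ↥(H ⊓ I) := by
    have hmap : ∀ σ : N ≃ₐ[E] N, σ ∈ IE → AlgEquiv.restrictScalars K σ ∈ H ⊓ I := by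
      intro σ hσ
      refine ⟨(hH _).2 (fun x => ?_), (hmem _).2 (fun x hx => ?_)⟩
      · exact σ.commutes x
      · exact (hmemE σ).1 hσ x hx
    refine Nat.card_eq_of_bijective
      (fun σ : IE => (⟨AlgEquiv.restrictScalars K σ.1, hmap σ.1 σ.2⟩ : ↥(H ⊓ I))) ⟨?_, ?_⟩
    · intro σ τ hστ
      have h1 : AlgEquiv.restrictScalars K σ.1 = AlgEquiv.restrictScalars K τ.1 :=
        congrArg Subtype.val hστ
      exact Subtype.ext (AlgEquiv.restrictScalars_injective K h1)
    · rintro ⟨τ, hτH, hτI⟩
      have hτE : ∀ x : E, τ (algebraMap E N x) = algebraMap E N x := (hH τ).1 hτH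
      let σ : N ≃ₐ[E] N := AlgEquiv.ofRingEquiv (f := τ.toRingEquiv) hτE
      have hσ : σ ∈ IE := (hmemE σ).2 (fun x hx => (hmem τ).1 hτI x hx)
      refine ⟨⟨σ, hσ⟩, Subtype.ext ?_⟩
      ext x
      rfl
  -- `e(E/K)` and multiplicativity
  obtain ⟨e', f', -, he', -⟩ := H724.ramification_core724 A F K E ϖK ϖE hϖK hϖE
  have hcK := hcard ϖK ϖN hϖK hϖN
  have hcE := hcardE ϖE ϖN hϖE hϖN
  have hmul : (Nat.card I : ℤ) = e' * Nat.card IE := by
    have he'' : unitsIncl N E (unitsIncl E K ϖK * ϖE ^ (-(e' : ℤ))) ∈ intUnits A F N :=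
      (H724.unitsIncl_mem_intUnits_iff724 A F E N _).2 he'
    have hincl : unitsIncl N E (unitsIncl E K ϖK) = unitsIncl N K ϖK := by
      ext
      simp only [unitsIncl_coe]
      exact (IsScalarTower.algebraMap_apply K E N _).symm
    rw [map_mul, map_zpow, hincl] at he''
    have key : ϖN ^ ((e' : ℤ) * Nat.card IE - Nat.card I) ∈ intUnits A F N := by
      have := (intUnits A F N).mul_mem
        ((intUnits A F N).mul_mem hcK ((intUnits A F N).inv_mem he''))
        ((intUnits A F N).zpow_mem hcE (-(e' : ℤ)))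
      have heq : unitsIncl N K ϖK * ϖN ^ (-(Nat.card I : ℤ)) *
          (unitsIncl N K ϖK * unitsIncl N E ϖE ^ (-(e' : ℤ)))⁻¹ *
          (unitsIncl N E ϖE * ϖN ^ (-(Nat.card IE : ℤ))) ^ (-(e' : ℤ)) =
          ϖN ^ ((e' : ℤ) * Nat.card IE - Nat.card I) := by
        apply Additive.ofMul.injective
        simp only [ofMul_mul, ofMul_zpow, ofMul_inv]
        module
      rwa [heq] at this
    have h0 := H724.zpow_mem_intUnits724 A F N hϖN.1 hϖN.2.1 key
    linarith
  have hmulN : Nat.card I = e' * Nat.card ↥(H ⊓ I) := by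
    rw [← hcardEq]
    exact_mod_cast hmul
  have hpos : 0 < Nat.card ↥(H ⊓ I) := Nat.card_pos
  have hposI : 0 < Nat.card I := Nat.card_pos
  constructor
  · rw [isUnram_iff_of_unif A F E N hϖE hϖN hcE, hcardEq]
    exact Subgroup.card_eq_one
  · rw [isUnram_iff_of_unif A F K E hϖK hϖE he']
    constructor
    · intro h1
      have hc : Nat.card I = Nat.card ↥(H ⊓ I) := by rw [hmulN, h1, one_mul]
      have heq : H ⊓ I = I := Subgroup.eq_of_le_of_card_ge inf_le_right hc.le
      rw [← heq]
      exact inf_le_left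
    · intro hle
      have heq : H ⊓ I = I := inf_eq_right.2 hle
      rw [heq] at hmulN
      have : e' * Nat.card I = 1 * Nat.card I := by rw [one_mul]; exact hmulN.symm
      exact Nat.eq_of_mul_eq_mul_right hposI this

end Tower

section Final

/-- **UR6'** (`InertiaCardStatement` of `Spec2.lean`): inertia subgroup with the unramified
sub-extension property and of order the ramification index. -/
theorem inertiaCard483 : InertiaCardStatement := by
  intro A F _ _ _ _ _ _ _ _ _ K _ _ _ N _ _ _ _ _ _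
  obtain ⟨I, hI, hmem, hcard⟩ := exists_inertia A F K N
  refine ⟨I, hI, ?_, hcard⟩
  intro E
  letI algFE : Algebra F E := ((algebraMap K E).comp (algebraMap F K)).toAlgebra
  haveI : @IsScalarTower F K E _ _ (@Algebra.toSMul F E _ _ algFE) :=
    IsScalarTower.of_algebraMap_eq (fun _ => rfl)
  haveI : @IsScalarTower F E N (@Algebra.toSMul F E _ _ algFE) _ _ :=
    IsScalarTower.of_algebraMap_eq (fun x => by
      show algebraMap F N x = algebraMap E N (algebraMap K E (algebraMap F K x))
      rw [← IsScalarTower.algebraMap_apply K E N, ← IsScalarTower.algebraMap_apply F K N])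
  exact tower_inertia A F K N E I hmem hcard E.fixingSubgroup (fun σ => by
    rw [IntermediateField.mem_fixingSubgroup_iff]
    exact ⟨fun h x => h x.1 x.2, fun h x hx => h ⟨x, hx⟩⟩)

/-- **UR6** (`InertiaStatement` of `Spec.lean`). -/
theorem inertia483 : InertiaStatement :=
  inertiaStatement_of_inertiaCard inertiaCard483

end Final

end Fermat.Agent.S55.Local.H483
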